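import Fermat.Agent.HM.Trace
import Fermat.Agent.MF.CoeffField
import Fermat.Prelude.Def_CuspForm_Newforms
import Fermat.Agent.MF.EigenChar

/-!
Basic newform theory in weight two, for the Prelude's `IsNewform`:

* a good eigenvector gives a normalised eigenform with the same good eigensystem;
* existence of a newform with the same good eigensystem;
* `a_q = 0` if `q² ∣ M`, `a_q² = 1` and `W_q f = -a_q f` if `q ∥ M`.
-/

set_option autoImplicit false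

noncomputable section

open scoped MatrixGroups
open UpperHalfPlane CongruenceSubgroup ModularFormClass

namespace FermatAgent.HM

open MF

variable {N : ℕ} [NeZero N]

/-- A nonzero vector with prescribed `T_ℓ` eigenvalues for `ℓ` outside a set `P` (containing
the bad primes) yields a normalised eigenform with those coefficients. -/
theorem exists_eigenform_of_eigenvector {v : CuspForm (Gamma0 N) 2} (hv : v ≠ 0) (c : ℕ → ℂ)
    (P : Set ℕ) (hP : ∀ ℓ : ℕ, ℓ.Prime → ℓ ∣ N → ℓ ∈ P)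
    (heig : ∀ (ℓ : ℕ) (hℓ : ℓ.Prime) (hℓN : ¬ ℓ ∣ N), ℓ ∉ P →
      CuspForm.heckeTLin 2 hℓ hℓN v = c ℓ • v) :
    ∃ g : CuspForm (Gamma0 N) 2, g.IsNormalizedEigenform ∧
      ∀ ℓ : ℕ, ℓ.Prime → ℓ ∉ P → qCoeff g ℓ = c ℓ := by
  let W : Submodule ℂ (CuspForm (Gamma0 N) 2) := ⨅ (ℓ : ℕ) (hℓ : ℓ.Prime) (_ : ℓ ∉ P),
    Module.End.eigenspace (heckeAt N 2 hℓ) (c ℓ)
  let ρ : CuspForm.heckeAlgebra N 2 ∅ →+* Module.End ℂ (CuspForm (Gamma0 N) 2) :=
    (CuspForm.heckeAlgebra N 2 ∅).val.toRingHom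
  have hmem : ∀ x, x ∈ W ↔ ∀ (ℓ : ℕ) (hℓ : ℓ.Prime), ℓ ∉ P → heckeAt N 2 hℓ x = c ℓ • x := by
    intro x
    simp [W, Submodule.mem_iInf]
  have hWs : IsStable ρ W := by
    intro t w hw
    rw [hmem] at hw ⊢
    intro ℓ hℓ hℓP
    have hcomm := (ρ_commute ρ ⟨_, heckeAt_mem hℓ (Set.notMem_empty ℓ)⟩ t).eq
    have h' := LinearMap.congr_fun hcomm w
    rw [Module.End.mul_apply, Module.End.mul_apply] at h'
    refine h'.trans ?_
    show ρ t (heckeAt N 2 hℓ w) = _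
    rw [hw ℓ hℓ hℓP, map_smul]
  have hvW : v ∈ W := by
    rw [hmem]
    intro ℓ hℓ hℓP
    have hℓN : ¬ ℓ ∣ N := fun h => hℓP (hP ℓ hℓ h)
    rw [heckeAt, dif_neg hℓN]
    exact heig ℓ hℓ hℓN hℓP
  obtain ⟨u, χ, huW, hu0, hχ⟩ := exists_common_eigenvector ρ hWs
    (fun h => hv ((Submodule.mem_bot ℂ).mp (h ▸ hvW)))
  classical
  let e : ℕ → ℂ := fun ℓ =>
    if hℓ : ℓ.Prime then χ ⟨_, heckeAt_mem hℓ (Set.notMem_empty ℓ)⟩ else 0
  have he : ∀ (ℓ : ℕ) (hℓ : ℓ.Prime), heckeAt N 2 hℓ u = e ℓ • u := fun ℓ hℓ => by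
    simp only [e, dif_pos hℓ]
    exact hχ ⟨_, heckeAt_mem hℓ (Set.notMem_empty ℓ)⟩
  obtain ⟨hg, hval⟩ := isEigen_normalize he hu0
  refine ⟨_, (isEigen_iff_isNormalizedEigenform _).mp hg, fun ℓ hℓ hℓP => ?_⟩
  rw [hval ℓ hℓ]
  exact smul_left_injective ℂ hu0 ((he ℓ hℓ).symm.trans ((hmem u).mp huW ℓ hℓ hℓP))

/-- The eigenvalue of `T_ℓ` on a normalised eigenform. -/
lemma heckeTLin_apply_eigenform {f : CuspForm (Gamma0 N) 2} (hf : f.IsNormalizedEigenform) {ℓ : ℕ}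
    (hℓ : ℓ.Prime) (hℓN : ¬ ℓ ∣ N) : CuspForm.heckeTLin 2 hℓ hℓN f = qCoeff f ℓ • f := by
  have := ((isEigen_iff_isNormalizedEigenform f).mpr hf).heckeAt_apply hℓ
  rwa [heckeAt, dif_neg hℓN] at this

/-- The eigenvalue of `U_q` on a normalised eigenform is its `q`-th coefficient. -/
lemma heckeULin_apply_eigenform {f : CuspForm (Gamma0 N) 2} (hf : f.IsNormalizedEigenform) {q : ℕ}
    (hq : q.Prime) (hqN : q ∣ N) : CuspForm.heckeULin 2 hqN f = qCoeff f q • f := by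
  have := ((isEigen_iff_isNormalizedEigenform f).mpr hf).heckeAt_apply hq
  rwa [heckeAt, dif_pos hqN] at this

/-- An eigensystem of level `M` occurs at every multiple of `M`. -/
theorem exists_eigenform_of_dvd {M : ℕ} [NeZero M] (h : M ∣ N) {g : CuspForm (Gamma0 M) 2}
    (hg : g.IsNormalizedEigenform) :
    ∃ g' : CuspForm (Gamma0 N) 2, g'.IsNormalizedEigenform ∧
      ∀ ℓ : ℕ, ℓ.Prime → ¬ ℓ ∣ N → qCoeff g' ℓ = qCoeff g ℓ := by
  have hne : levelRaise h g ≠ 0 := fun h0 => by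
    have h1 : qCoeff (⇑(levelRaise h g)) 1 = 1 := hg.qCoeff_one
    rw [h0, qCoeff_zero_fun] at h1
    exact zero_ne_one h1
  obtain ⟨g', hg', hval⟩ := exists_eigenform_of_eigenvector hne (fun ℓ => qCoeff g ℓ)
    {ℓ | ℓ ∣ N} (fun ℓ _ hd => hd) fun ℓ hℓ hℓN _ => DFunLike.coe_injective <| by
      show ModularForm.heckeT 2 ℓ ⇑g = ⇑(qCoeff (⇑g) ℓ • levelRaise h g)
      rw [← CuspForm.coe_heckeTLin_apply 2 hℓ (fun hd => hℓN (hd.trans h)),
        heckeTLin_apply_eigenform hg]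
      rfl
  exact ⟨g', hg', fun ℓ hℓ hℓN => hval ℓ hℓ hℓN⟩

/-- Every normalised eigenform has a newform with the same good eigensystem. -/
theorem exists_newform {f : CuspForm (Gamma0 N) 2} (hf : f.IsNormalizedEigenform) :
    ∃ (M : ℕ) (g : CuspForm (Gamma0 M) 2), M ∣ N ∧ 0 < M ∧ g.IsNewform ∧
      ∀ ℓ : ℕ, ℓ.Prime → ¬ ℓ ∣ N → qCoeff g ℓ = qCoeff f ℓ := by
  classical
  have hex : ∃ M, M ∣ N ∧ CuspForm.GoodEigensystemOccursAt f M :=
    ⟨N, dvd_rfl, CuspForm.GoodEigensystemOccursAt.refl hf⟩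
  obtain ⟨hMN, g, hg, hval⟩ := Nat.find_spec hex
  have hMpos : 0 < Nat.find hex := Nat.pos_of_ne_zero fun h0 => by
    rw [h0] at hMN
    exact NeZero.ne N (Nat.eq_zero_of_zero_dvd hMN)
  refine ⟨_, g, hMN, hMpos, ⟨hg, fun M' hM' hne hocc => ?_⟩, hval⟩
  obtain ⟨g', hg', hval'⟩ := hocc
  exact Nat.find_min hex (lt_of_le_of_ne (Nat.le_of_dvd hMpos hM') hne)
    ⟨hM'.trans hMN, g', hg', fun ℓ hℓ hℓN =>
      (hval' ℓ hℓ fun hd => hℓN (hd.trans hMN)).trans (hval ℓ hℓ hℓN)⟩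

/-- If `f` is new at `q` and `q² ∣ N`, then `a_q = 0`. -/
theorem qCoeff_eq_zero_of_isNewformAt {f : CuspForm (Gamma0 N) 2} {q : ℕ} (hq : q.Prime)
    (hf : f.IsNewformAt q) (hq2 : q ^ 2 ∣ N) : qCoeff f q = 0 := by
  obtain ⟨hf, hqN, hnew⟩ := hf
  by_contra hne
  obtain ⟨M, hM⟩ : ∃ M, N = M * q := ⟨N / q, (Nat.div_mul_cancel hqN).symm⟩
  have hqM : q ∣ M := by
    rw [hM, pow_two] at hq2
    exact Nat.dvd_of_mul_dvd_mul_right hq.pos hq2
  have : NeZero M := ⟨fun h => NeZero.ne N (by rw [hM, h, zero_mul])⟩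
  obtain ⟨g, hg⟩ := exists_heckeU_eq_of_sq_dvd hq hM hqM f
  have hgf : ⇑((qCoeff f q)⁻¹ • g) = ⇑f := by
    rw [FunLike.coe_smul, hg, ← CuspForm.coe_heckeULin_apply 2 hqN f,
      heckeULin_apply_eigenform hf hq hqN, FunLike.coe_smul, inv_smul_smul₀ hne]
  apply hnew
  have hdiv : N / q = M := by
    have h := congrArg (· / q) hM
    simpa [Nat.mul_div_cancel _ hq.pos] using h
  suffices key : CuspForm.GoodEigensystemOccursAt f M from hdiv ▸ key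
  have hdvd : ∀ p : ℕ, p.Prime → (p ∣ N ↔ p ∣ M) := fun p hp => by
    rw [hM, hp.dvd_mul]
    exact ⟨fun h => h.elim id fun hd => ((Nat.prime_dvd_prime_iff_eq hp hq).mp hd).symm ▸ hqM,
      Or.inl⟩
  refine ⟨(qCoeff f q)⁻¹ • g, ?_, fun ℓ _ _ => by rw [hgf]⟩
  exact
    { qCoeff_one := by rw [hgf]; exact hf.qCoeff_one
      qCoeff_mul_of_coprime := fun m n h => by rw [hgf]; exact hf.qCoeff_mul_of_coprime m n h
      qCoeff_prime_pow_of_not_dvd := fun p r hp h => by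
        rw [hgf]; exact hf.qCoeff_prime_pow_of_not_dvd p r hp (mt (hdvd p hp).mp h)
      qCoeff_prime_pow_of_dvd := fun p r hp h => by
        rw [hgf]; exact hf.qCoeff_prime_pow_of_dvd p r hp ((hdvd p hp).mpr h) }

namespace ALData

variable (D : ALData)

/-- The trace of a good eigenvector new at `q` vanishes. -/
theorem tr_eq_zero {f : CuspForm (Gamma0 D.N) 2}
    (hnew : ¬ CuspForm.GoodEigensystemOccursAt f D.L) (v : CuspForm (Gamma0 D.N) 2)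
    (hv : ∀ (ℓ : ℕ) (hℓ : ℓ.Prime) (hℓN : ¬ ℓ ∣ D.N),
      CuspForm.heckeTLin 2 hℓ hℓN v = qCoeff f ℓ • v) : D.tr v = 0 := by
  by_contra hne
  obtain ⟨g, hg, hval⟩ := exists_eigenform_of_eigenvector hne (fun ℓ => qCoeff f ℓ)
    {ℓ | ℓ ∣ D.N} (fun ℓ _ hd => hd.trans D.L_dvd_N) fun ℓ hℓ hℓL hℓN => by
      have h := D.heckeTLin_tr v hℓ hℓN
      rw [hv ℓ hℓ hℓN] at h
      refine h.trans (DFunLike.coe_injective ?_)
      simp only [coe_tr, FunLike.coe_smul]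
      rw [trFun_eq, trFun_eq, D.op_smul]
      simp only [FunLike.coe_smul, ModularForm.heckeU_smul, smul_add]
  exact hnew ⟨g, hg, fun ℓ hℓ hℓN => hval ℓ hℓ hℓN⟩

variable {f : CuspForm (Gamma0 D.N) 2} (hf : f.IsNormalizedEigenform)
  (hnew : ¬ CuspForm.GoodEigensystemOccursAt f D.L)

include hf hnew

/-- `W_q f = -a_q f` for `f` new at `q ∥ N`. -/
theorem op_eq : D.op f = -qCoeff f D.q • f := by
  have hv : ∀ (ℓ : ℕ) (hℓ : ℓ.Prime) (hℓN : ¬ ℓ ∣ D.N),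
      CuspForm.heckeTLin 2 hℓ hℓN (D.op f) = qCoeff f ℓ • D.op f := fun ℓ hℓ hℓN => by
    rw [← D.op_heckeTLin, heckeTLin_apply_eigenform hf, D.op_smul]
  have h := congrArg (levelRaise D.L_dvd_N) (D.tr_eq_zero hnew _ hv)
  rw [map_zero, levelRaise_tr, D.op_op,
    heckeULin_apply_eigenform hf D.prime D.q_dvd_N] at h
  exact (eq_neg_of_add_eq_zero_left h).trans (_root_.neg_smul _ _).symm

/-- `a_q² = 1` for `f` new at `q ∥ N`. -/
theorem qCoeff_sq_eq_one : qCoeff f D.q ^ 2 = 1 := by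
  have h := D.op_op f
  rw [D.op_eq hf hnew, D.op_smul, D.op_eq hf hnew, smul_smul] at h
  have h1 := congrArg (fun v : CuspForm (Gamma0 D.N) 2 => qCoeff v 1) h
  simp only [qCoeff_smul, hf.qCoeff_one, mul_one, neg_mul_neg] at h1
  rw [pow_two]
  exact h1

end ALData

/-- `a_q² = 1` if `f` is new at `q ∥ N`. -/
theorem qCoeff_sq_eq_one_of_isNewformAt {f : CuspForm (Gamma0 N) 2} {q : ℕ} (hq : q.Prime)
    (hf : f.IsNewformAt q) (hq2 : ¬ q ^ 2 ∣ N) : qCoeff f q ^ 2 = 1 := by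
  obtain ⟨hf, hqN, hnew⟩ := hf
  obtain ⟨L, hL⟩ : ∃ L, N = L * q := ⟨N / q, (Nat.div_mul_cancel hqN).symm⟩
  have hqL : ¬ q ∣ L := fun h => hq2 (by rw [hL, pow_two]; exact Nat.mul_dvd_mul_right h q)
  have hL0 : L ≠ 0 := fun h => NeZero.ne N (by rw [hL, h, zero_mul])
  obtain ⟨D, rfl, rfl⟩ := ALData.exists_data hq hqL hL0
  subst hL
  refine D.qCoeff_sq_eq_one hf ?_
  rwa [Nat.mul_div_cancel _ hq.pos] at hnew

/-- `NewformBadPrimeCoeff` holds in every level. -/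
theorem newformBadPrimeCoeff (N : ℕ) [NeZero N] : CuspForm.NewformBadPrimeCoeff N :=
  fun _ hf _ hq hqN =>
    ⟨fun h => qCoeff_sq_eq_one_of_isNewformAt hq (hf.isNewformAt hq hqN (NeZero.ne N)) h,
      fun h => qCoeff_eq_zero_of_isNewformAt hq (hf.isNewformAt hq hqN (NeZero.ne N)) h⟩

end FermatAgent.HM
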