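import Fermat.Agent.HM.LevelMaps

/-!
Integral matrices of prime determinant `ℓ` modulo `Γ₀(M)`, `ℓ ∤ M`.
-/

set_option autoImplicit false

noncomputable section

open scoped MatrixGroups ModularForm OnePoint
open UpperHalfPlane Matrix.SpecialLinearGroup CongruenceSubgroup
open P2MW.S_ModularForm_heckeT_slash_eq_self_of_mem_Gamma0.ModularForm.HeckeSlashInvariance

namespace FermatAgent.HM

variable {ℓ : ℕ}

/-- The representatives of `T_ℓ` as integral matrices. -/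
def repMat (ℓ : ℕ) (x : OnePoint (ZMod ℓ)) : Matrix (Fin 2) (Fin 2) ℤ :=
  x.elim !![(ℓ : ℤ), 0; 0, 1] fun j => !![1, (j.val : ℤ); 0, (ℓ : ℤ)]

/-- The representative at `∞` is `(ℓ 0; 0 1)`. -/
@[simp] lemma repMat_infty : repMat ℓ ∞ = !![(ℓ : ℤ), 0; 0, 1] := rfl

/-- The representative at `j` is `(1 j; 0 ℓ)`. -/
@[simp] lemma repMat_coe (j : ZMod ℓ) : repMat ℓ j = !![1, (j.val : ℤ); 0, (ℓ : ℤ)] := rfl

/-- The representatives have determinant `ℓ`. -/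
lemma det_repMat (x : OnePoint (ZMod ℓ)) : (repMat ℓ x).det = ℓ := by
  induction x using OnePoint.rec <;> simp [Matrix.det_fin_two_of]

variable [Fact ℓ.Prime]

/-- The representatives have nonzero determinant. -/
lemma det_repMat_ne_zero (x : OnePoint (ZMod ℓ)) : (repMat ℓ x).det ≠ 0 := by
  rw [det_repMat]
  exact_mod_cast (Fact.out : ℓ.Prime).ne_zero

/-- In `GL(2, ℝ)` the representatives are those defining the Hecke operator on forms. -/
lemma intGL_repMat (x : OnePoint (ZMod ℓ)) :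
    intGL (repMat ℓ x) (det_repMat_ne_zero x) = heckeRep ℓ x := by
  have hℓ := (Fact.out : ℓ.Prime).ne_zero
  induction x using OnePoint.rec <;> ext i j <;> fin_cases i <;> fin_cases j <;> simp [hℓ]

/-- Right division by a representative; the first column loses a factor `ℓ` only at `∞`. -/
theorem exists_factor_repMat (A : Matrix (Fin 2) (Fin 2) ℤ) (hdet : (ℓ : ℤ) ∣ A.det) :
    ∃ A' : Matrix (Fin 2) (Fin 2) ℤ, ∃ x : OnePoint (ZMod ℓ), A = A' * repMat ℓ x ∧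
      (x = ∞ → ∀ i, A i 0 = ℓ * A' i 0) ∧ (x ≠ ∞ → ∀ i, A' i 0 = A i 0) := by
  rw [Matrix.det_fin_two] at hdet
  by_cases hac : (ℓ : ℤ) ∣ A 0 0 ∧ (ℓ : ℤ) ∣ A 1 0
  · obtain ⟨⟨a, ha⟩, ⟨c, hc⟩⟩ := hac
    refine ⟨!![a, A 0 1; c, A 1 1], ∞, ?_, fun _ i => ?_, fun h => absurd rfl h⟩
    · ext i j
      fin_cases i <;> fin_cases j <;> simp [Matrix.mul_apply, Fin.sum_univ_two, ha, hc, mul_comm]
    · fin_cases i <;> simp [ha, hc]
  · have hred : ((A 0 0 : ℤ) : ZMod ℓ) * (A 1 1 : ℤ) = (A 0 1 : ℤ) * (A 1 0 : ℤ) := by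
      have h := (ZMod.intCast_zmod_eq_zero_iff_dvd _ _).mpr hdet
      push_cast at h
      linear_combination h
    obtain ⟨j, hjb, hjd⟩ : ∃ j : ZMod ℓ, ((A 0 1 : ℤ) : ZMod ℓ) = (A 0 0 : ℤ) * j ∧
        ((A 1 1 : ℤ) : ZMod ℓ) = (A 1 0 : ℤ) * j := by
      by_cases ha : ((A 0 0 : ℤ) : ZMod ℓ) = 0
      · have hc : ((A 1 0 : ℤ) : ZMod ℓ) ≠ 0 := fun hc =>
          hac ⟨(ZMod.intCast_zmod_eq_zero_iff_dvd _ _).mp ha,
            (ZMod.intCast_zmod_eq_zero_iff_dvd _ _).mp hc⟩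
        have hb : ((A 0 1 : ℤ) : ZMod ℓ) = 0 := by
          rw [ha, zero_mul, eq_comm, mul_eq_zero] at hred
          exact hred.resolve_right hc
        exact ⟨(A 1 1 : ℤ) / (A 1 0 : ℤ), by rw [ha, hb, zero_mul], by field_simp⟩
      · refine ⟨(A 0 1 : ℤ) / (A 0 0 : ℤ), by field_simp, ?_⟩
        field_simp
        linear_combination hred
    obtain ⟨b, hb⟩ : (ℓ : ℤ) ∣ A 0 1 - A 0 0 * j.val := by
      rw [← ZMod.intCast_zmod_eq_zero_iff_dvd]
      push_cast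
      rw [ZMod.natCast_zmod_val, hjb, sub_self]
    obtain ⟨d, hd⟩ : (ℓ : ℤ) ∣ A 1 1 - A 1 0 * j.val := by
      rw [← ZMod.intCast_zmod_eq_zero_iff_dvd]
      push_cast
      rw [ZMod.natCast_zmod_val, hjd, sub_self]
    refine ⟨!![A 0 0, b; A 1 0, d], j, ?_,
      fun h => absurd h (OnePoint.coe_ne_infty j), fun _ i => ?_⟩
    · ext i k
      fin_cases i <;> fin_cases k <;> simp [-ZMod.natCast_val, Matrix.mul_apply, Fin.sum_univ_two]
      · linear_combination hb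
      · linear_combination hd
    · fin_cases i <;> simp

/-- Integral matrices of determinant `ℓ` with lower left entry divisible by `M` fall into the
cosets of the representatives. -/
theorem exists_eq_mul_repMat {M : ℕ} (hℓM : ¬ ℓ ∣ M) (A : Matrix (Fin 2) (Fin 2) ℤ)
    (hdet : A.det = ℓ) (hA : (M : ℤ) ∣ A 1 0) :
    ∃ γ : Gamma0 M, ∃ x : OnePoint (ZMod ℓ),
      A = ((γ : SL(2, ℤ)) : Matrix (Fin 2) (Fin 2) ℤ) * repMat ℓ x := by
  obtain ⟨A', x, hAx, hinf, hfin⟩ := exists_factor_repMat (ℓ := ℓ) A (hdet ▸ dvd_rfl)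
  have hd : A'.det = 1 := by
    have h := congrArg Matrix.det hAx
    rw [Matrix.det_mul, det_repMat, hdet] at h
    exact (mul_eq_right₀ (by exact_mod_cast (Fact.out : ℓ.Prime).ne_zero)).mp h.symm
  have hc : (M : ℤ) ∣ A' 1 0 := by
    rcases eq_or_ne x ∞ with hx | hx
    · exact (Nat.isCoprime_iff_coprime.mpr
        ((Nat.Prime.coprime_iff_not_dvd Fact.out).mpr hℓM).symm).dvd_of_dvd_mul_left
        (hinf hx 1 ▸ hA)
    · rw [hfin hx 1]; exact hA
  exact ⟨⟨⟨A', hd⟩, Gamma0_mem.mpr ((ZMod.intCast_zmod_eq_zero_iff_dvd _ _).mpr hc)⟩, x, hAx⟩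

/-- The representatives are inequivalent. -/
theorem repMat_unique {γ : SL(2, ℤ)} {x y : OnePoint (ZMod ℓ)}
    (h : repMat ℓ x = (γ : Matrix (Fin 2) (Fin 2) ℤ) * repMat ℓ y) : x = y := by
  have hℓ : ℓ.Prime := Fact.out
  have hℓ0 : (ℓ : ℤ) ≠ 0 := by exact_mod_cast hℓ.ne_zero
  have hdet := γ.det_coe
  rw [Matrix.det_fin_two] at hdet
  have e := fun i j => congrFun (congrFun h i) j
  have e00 := e 0 0; have e01 := e 0 1; have e10 := e 1 0; have e11 := e 1 1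
  induction x using OnePoint.rec with
  | infty =>
    induction y using OnePoint.rec with
    | infty => rfl
    | coe j =>
      exfalso
      simp [-ZMod.natCast_val, Matrix.mul_apply, Fin.sum_univ_two] at e00 e01 e10 e11
      rw [← e10] at e11
      apply hℓ.one_lt.ne'
      have : (ℓ : ℤ) ∣ 1 := ⟨γ 1 1, by linear_combination e11⟩
      exact_mod_cast Int.eq_one_of_dvd_one (by positivity) this
  | coe i =>
    induction y using OnePoint.rec with
    | infty =>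
      exfalso
      simp [-ZMod.natCast_val, Matrix.mul_apply, Fin.sum_univ_two] at e00 e01 e10 e11
      have : (ℓ : ℤ) ∣ 1 := ⟨γ 0 0, by linear_combination e00⟩
      apply hℓ.one_lt.ne'
      exact_mod_cast Int.eq_one_of_dvd_one (by positivity) this
    | coe j =>
      simp [-ZMod.natCast_val, Matrix.mul_apply, Fin.sum_univ_two] at e00 e01 e10 e11
      have hv : ((i.val : ℤ) : ZMod ℓ) = ((j.val : ℤ) : ZMod ℓ) := by
        rw [e01, ← e00]
        push_cast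
        simp
      simpa using hv

/-- Moving a matrix through the representatives: if `g` carries integral matrices of determinant
`ℓ` with `M ∣ c` into themselves and is compatible with `Γ₀(M)`, then `g` commutes with `T_ℓ`. -/
theorem heckeT_slash_comm {M : ℕ} (hℓM : ¬ ℓ ∣ M) (k : ℤ) (f : ℍ → ℂ)
    (hf : ∀ γ ∈ Gamma0 M, f ∣[k] (γ : SL(2, ℤ)) = f) (W : Matrix (Fin 2) (Fin 2) ℤ)
    (hW : W.det ≠ 0)
    (hconj : ∀ A : Matrix (Fin 2) (Fin 2) ℤ, A.det = ℓ → (M : ℤ) ∣ A 1 0 →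
      ∃ A' : Matrix (Fin 2) (Fin 2) ℤ, A'.det = ℓ ∧ (M : ℤ) ∣ A' 1 0 ∧ W * A = A' * W)
    (hinj : ∀ (γ δ : Gamma0 M) (x y z : OnePoint (ZMod ℓ)),
      W * repMat ℓ x = ((γ : SL(2, ℤ)) : Matrix (Fin 2) (Fin 2) ℤ) * repMat ℓ z * W →
      W * repMat ℓ y = ((δ : SL(2, ℤ)) : Matrix (Fin 2) (Fin 2) ℤ) * repMat ℓ z * W → x = y) :
    ModularForm.heckeT k ℓ (f ∣[k] intGL W hW) = (ModularForm.heckeT k ℓ f) ∣[k] intGL W hW := by
  classical
  have : NeZero ℓ := ⟨(Fact.out : ℓ.Prime).ne_zero⟩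
  have hex : ∀ x, ∃ γ : Gamma0 M, ∃ z : OnePoint (ZMod ℓ),
      W * repMat ℓ x = ((γ : SL(2, ℤ)) : Matrix (Fin 2) (Fin 2) ℤ) * repMat ℓ z * W := by
    intro x
    have h10 : (M : ℤ) ∣ repMat ℓ x 1 0 := by induction x using OnePoint.rec <;> simp
    obtain ⟨A', hd', hc', he⟩ := hconj (repMat ℓ x) (det_repMat x) h10
    obtain ⟨γ, z, rfl⟩ := exists_eq_mul_repMat hℓM A' hd' hc'
    exact ⟨γ, z, he⟩
  choose γ π hπ using hex
  have hπinj : Function.Injective π := fun x y hxy => hinj (γ x) (γ y) x y (π x) (hπ x) (by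
    rw [hxy]; exact hπ y)
  rw [heckeT_eq_sum_onePoint, heckeT_eq_sum_onePoint, SlashAction.sum_slash]
  rw [← Equiv.sum_comp (Equiv.ofBijective π (Finite.injective_iff_bijective.mp hπinj))
    (fun z => (f ∣[k] heckeRep ℓ z) ∣[k] intGL W hW)]
  refine Finset.sum_congr rfl fun x _ => ?_
  have hgl : intGL W hW * heckeRep ℓ x =
      mapGL ℝ (γ x : SL(2, ℤ)) * heckeRep ℓ (π x) * intGL W hW := by
    rw [← intGL_repMat, ← intGL_repMat, ← intGL_coe, ← intGL_mul, ← intGL_mul, ← intGL_mul]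
    exact intGL_congr (hπ x) _
  have hfx : f ∣[k] mapGL ℝ (γ x : SL(2, ℤ)) = f := hf _ (γ x).2
  rw [Equiv.ofBijective_apply, ← SlashAction.slash_mul, hgl, SlashAction.slash_mul,
    SlashAction.slash_mul, hfx]

theorem val_intGL_scalar {c : ℕ} (h : ((c : ℤ) • (1 : Matrix (Fin 2) (Fin 2) ℤ)).det ≠ 0) :
    (intGL ((c : ℤ) • (1 : Matrix (Fin 2) (Fin 2) ℤ)) h : Matrix (Fin 2) (Fin 2) ℝ) =
      !![(c : ℝ), 0; 0, (c : ℝ)] := by
  ext i j
  rw [val_intGL]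
  fin_cases i <;> fin_cases j <;> simp

/-- A scalar matrix fixes every point. -/
theorem intGL_scalar_smul {c : ℕ} (hc : c ≠ 0)
    (h : ((c : ℤ) • (1 : Matrix (Fin 2) (Fin 2) ℤ)).det ≠ 0) (τ : ℍ) :
    intGL ((c : ℤ) • (1 : Matrix (Fin 2) (Fin 2) ℤ)) h • τ = τ := by
  have hcR : (c : ℝ) ≠ 0 := Nat.cast_ne_zero.mpr hc
  set g := intGL ((c : ℤ) • (1 : Matrix (Fin 2) (Fin 2) ℤ)) h with hg
  have hv : (g : Matrix (Fin 2) (Fin 2) ℝ) = !![(c : ℝ), 0; 0, (c : ℝ)] := val_intGL_scalar h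
  have hpos : 0 < (g.det : ℝ) := by
    rw [Matrix.GeneralLinearGroup.val_det_apply, hv, Matrix.det_fin_two_of]
    simpa using mul_self_pos.mpr hcR
  ext1
  rw [UpperHalfPlane.coe_smul_of_det_pos hpos]
  simp [UpperHalfPlane.num, UpperHalfPlane.denom, hv]
  field_simp [Nat.cast_ne_zero.mpr hc]

/-- A scalar matrix acts on forms of weight `k` by `c ^ (k - 2)`. -/
theorem slash_scalar_apply {c : ℕ} (hc : c ≠ 0)
    (h : ((c : ℤ) • (1 : Matrix (Fin 2) (Fin 2) ℤ)).det ≠ 0) (k : ℤ) (f : ℍ → ℂ) :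
    f ∣[k] intGL ((c : ℤ) • (1 : Matrix (Fin 2) (Fin 2) ℤ)) h = (c : ℂ) ^ (k - 2) • f := by
  have hcR : (c : ℝ) ≠ 0 := Nat.cast_ne_zero.mpr hc
  have hcC : (c : ℂ) ≠ 0 := Nat.cast_ne_zero.mpr hc
  funext τ
  set g := intGL ((c : ℤ) • (1 : Matrix (Fin 2) (Fin 2) ℤ)) h with hg
  have hv : (g : Matrix (Fin 2) (Fin 2) ℝ) = !![(c : ℝ), 0; 0, (c : ℝ)] := val_intGL_scalar h
  have hdet : (g.det : ℝ) = (c : ℝ) * c := by
    rw [Matrix.GeneralLinearGroup.val_det_apply, hv, Matrix.det_fin_two_of]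
    ring
  have hpos : 0 < (g.det : ℝ) := by rw [hdet]; positivity
  have hσ : UpperHalfPlane.σ g = .refl ℝ ℂ := by rw [UpperHalfPlane.σ, if_pos hpos]
  have hden : UpperHalfPlane.denom g τ = (c : ℂ) := by simp [UpperHalfPlane.denom, hv]
  rw [ModularForm.slash_apply, hσ, intGL_scalar_smul hc, hdet, hden, abs_of_pos (by positivity)]
  simp only [ContinuousAlgEquiv.refl_apply, Pi.smul_apply, smul_eq_mul]
  push_cast
  rw [mul_comm ((c : ℂ) ^ (k - 2)) (f τ), mul_assoc]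
  congr 1
  rw [mul_zpow, ← zpow_add₀ hcC, ← zpow_add₀ hcC]
  congr 1
  ring

/-- A scalar matrix acts trivially in weight two. -/
theorem slash_scalar_two {c : ℕ} (hc : c ≠ 0)
    (h : ((c : ℤ) • (1 : Matrix (Fin 2) (Fin 2) ℤ)).det ≠ 0) (f : ℍ → ℂ) :
    f ∣[(2 : ℤ)] intGL ((c : ℤ) • (1 : Matrix (Fin 2) (Fin 2) ℤ)) h = f := by
  rw [slash_scalar_apply hc, sub_self, zpow_zero, one_smul]

end FermatAgent.HM
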