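import Fermat.Agent.MF.Eigen
import Fermat.Prelude.Sol.S_CuspFormClass_isZeroAt_heckeU
import Fermat.Prelude.Sol.S_ModularForm_heckeT_slash_eq_self_of_mem_Gamma0

/-!
Cusp forms built from sums of slashes by integer matrices; change of level.
-/

set_option autoImplicit false

noncomputable section

open scoped MatrixGroups ModularForm Manifold
open UpperHalfPlane Matrix.SpecialLinearGroup CongruenceSubgroup

namespace FermatAgent.HM

/-- An integral matrix with nonzero determinant as an element of `GL(2, ℝ)`. -/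
def intGL (A : Matrix (Fin 2) (Fin 2) ℤ) (h : A.det ≠ 0) : GL (Fin 2) ℝ :=
  Matrix.GeneralLinearGroup.map (Rat.castHom ℝ)
    (Matrix.GeneralLinearGroup.mkOfDetNeZero (A.map (Int.cast : ℤ → ℚ)) (by
      rw [show (A.map (Int.cast : ℤ → ℚ)) = A.map (Int.castRingHom ℚ) from rfl,
        ← RingHom.mapMatrix_apply, ← RingHom.map_det]
      simpa using h))

/-- The real matrix of an integral matrix has the same entries. -/
@[simp] lemma val_intGL (A : Matrix (Fin 2) (Fin 2) ℤ) (h : A.det ≠ 0) (i j : Fin 2) :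
    (intGL A h : Matrix (Fin 2) (Fin 2) ℝ) i j = (A i j : ℝ) := by
  simp [intGL, Matrix.GeneralLinearGroup.mkOfDetNeZero]

/-- Passing to `GL(2, ℝ)` is multiplicative. -/
lemma intGL_mul (A B : Matrix (Fin 2) (Fin 2) ℤ) (hA : A.det ≠ 0) (hB : B.det ≠ 0) :
    intGL (A * B) (by rw [Matrix.det_mul]; exact mul_ne_zero hA hB) = intGL A hA * intGL B hB := by
  ext i j
  simp [Matrix.mul_apply, Fin.sum_univ_two]

/-- Equal matrices give equal elements of `GL(2, ℝ)`. -/
lemma intGL_congr {A B : Matrix (Fin 2) (Fin 2) ℤ} (h : A = B) (hA : A.det ≠ 0) :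
    intGL A hA = intGL B (h ▸ hA) := by subst h; rfl

/-- On `SL(2, ℤ)` it is the inclusion into `GL(2, ℝ)`. -/
lemma intGL_coe (γ : SL(2, ℤ)) :
    intGL (γ : Matrix (Fin 2) (Fin 2) ℤ) (by simp) = mapGL ℝ γ := by
  ext i j
  simp

/-- A cusp form of level `M` given by a function which is a sum of slashes of a cusp form by
integral matrices. -/
def ofSlashSum {Γ : Subgroup (GL (Fin 2) ℝ)} [Γ.IsArithmetic] {k : ℤ} (f : CuspForm Γ k)
    {ι : Type} (s : Finset ι) (A : ι → GL (Fin 2) ℚ) (M : ℕ) [NeZero M] (F : ℍ → ℂ)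
    (hF : F = ∑ i ∈ s, (⇑f) ∣[k] Matrix.GeneralLinearGroup.map (Rat.castHom ℝ) (A i))
    (hinv : ∀ γ ∈ Gamma0 M, F ∣[k] (γ : SL(2, ℤ)) = F) :
    CuspForm (Gamma0 M) k where
  toFun := F
  slash_action_eq' := by
    rintro _ ⟨γ, hγ, rfl⟩
    exact hinv γ hγ
  holo' := by
    have h : ∀ i ∈ s, MDiff ((⇑f) ∣[k] Matrix.GeneralLinearGroup.map (Rat.castHom ℝ) (A i)) :=
      fun i _ => (CuspFormClass.holo f).slash k _
    show MDiff F
    rw [hF]
    refine MDifferentiable.sum ?_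
    exact h
  zero_at_cusps' := fun {c} hc => by
    have hc' : IsCusp c Γ := by
      rw [Subgroup.IsArithmetic.isCusp_iff_isCusp_SL2Z] at hc ⊢
      exact hc
    show c.IsZeroAt F k
    rw [hF]
    exact P2MW.S_CuspFormClass_isZeroAt_heckeU.ModularForm.S06W2.isZeroAt_sum s fun i _ =>
      P2MW.S_CuspFormClass_isZeroAt_heckeU.ModularForm.S06W2.isZeroAt_slash_ratCast f (A i) hc'
/-- The inclusion `S_k(Γ₀(M)) → S_k(Γ₀(N))` for `M ∣ N`. -/
def levelRaise {M N : ℕ} [NeZero M] [NeZero N] (h : M ∣ N) {k : ℤ} :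
    CuspForm (Gamma0 M) k →ₗ[ℂ] CuspForm (Gamma0 N) k where
  toFun f :=
    { toFun := ⇑f
      slash_action_eq' := by
        rintro _ ⟨γ, hγ, rfl⟩
        refine SlashInvariantFormClass.slash_action_eq f _ ⟨γ, ?_, rfl⟩
        have hd := (ZMod.intCast_zmod_eq_zero_iff_dvd _ _).mp (Gamma0_mem.mp hγ)
        exact Gamma0_mem.mpr ((ZMod.intCast_zmod_eq_zero_iff_dvd _ _).mpr
          ((Int.natCast_dvd_natCast.mpr h).trans hd))
      holo' := CuspFormClass.holo f
      zero_at_cusps' := fun {c} hc => by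
        refine CuspFormClass.zero_at_cusps f ?_
        rw [Subgroup.IsArithmetic.isCusp_iff_isCusp_SL2Z] at hc ⊢
        exact hc }
  map_add' _ _ := rfl
  map_smul' _ _ := rfl

/-- Raising the level does not change the function. -/
@[simp] lemma coe_levelRaise {M N : ℕ} [NeZero M] [NeZero N] (h : M ∣ N) {k : ℤ}
    (f : CuspForm (Gamma0 M) k) : ⇑(levelRaise h f) = ⇑f := rfl

open P2MW.S_ModularForm_heckeT_slash_eq_self_of_mem_Gamma0.ModularForm in
open HeckeSlashInvariance in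
/-- If `q² ∣ N` then `U_q` lowers the level to `N / q`. -/
theorem exists_heckeU_eq_of_sq_dvd {M N q : ℕ} [NeZero M] [NeZero N] (hq : q.Prime)
    (hN : N = M * q) (hqM : q ∣ M) {k : ℤ} (f : CuspForm (Gamma0 N) k) :
    ∃ g : CuspForm (Gamma0 M) k, ⇑g = ModularForm.heckeU k q ⇑f := by
  have : NeZero q := ⟨hq.ne_zero⟩
  choose A hA using fun x : ZMod q =>
    P2MW.S_CuspFormClass_isZeroAt_heckeU.ModularForm.S06W2.exists_heckeMatrix_eq_map q x.val
  refine ⟨ofSlashSum f Finset.univ A M (ModularForm.heckeU k q ⇑f)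
    ((heckeU_eq_sum_zmod k _).trans (Finset.sum_congr rfl fun x _ => by rw [hA x]))
    fun γ hγ => ?_, rfl⟩
  have hcM : (M : ℤ) ∣ γ 1 0 := (ZMod.intCast_zmod_eq_zero_iff_dvd _ _).mp (Gamma0_mem.mp hγ)
  have hc : (q : ℤ) ∣ γ 1 0 := (Int.natCast_dvd_natCast.mpr hqM).trans hcM
  rw [ModularForm.SL_slash, heckeU_eq_sum_zmod k, SlashAction.sum_slash]
  calc ∑ x : ZMod q, (⇑f ∣[k] ModularForm.heckeMatrix q x.val) ∣[k] mapGL ℝ γ
      = ∑ x : ZMod q, ⇑f ∣[k] ModularForm.heckeMatrix q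
          (affinePerm γ ((ZMod.intCast_zmod_eq_zero_iff_dvd _ _).mpr hc) x).val := by
        refine Finset.sum_congr rfl fun x _ => ?_
        obtain ⟨g', hg', hmul⟩ := heckeMatrix_mul_of_dvd γ hc x
        have hg'N : g' ∈ Gamma0 N := by
          rw [Gamma0_mem, ZMod.intCast_zmod_eq_zero_iff_dvd, hg', hN]
          push_cast
          rw [mul_comm (M : ℤ)]
          exact mul_dvd_mul_left _ hcM
        rw [← SlashAction.slash_mul, hmul, SlashAction.slash_mul,
          SlashInvariantFormClass.slash_action_eq f _ (Subgroup.mem_map_of_mem (mapGL ℝ) hg'N)]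
    _ = _ := Equiv.sum_comp (affinePerm γ _) (fun x => ⇑f ∣[k] ModularForm.heckeMatrix q x.val)

end FermatAgent.HM
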