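import Fermat.Agent.HM.AtkinLehner

/-!
The trace from level `Lq` down to level `L`, `q ∤ L`, in weight two:
`Tr f = f + U_q (W_q f)`.
-/

set_option autoImplicit false

noncomputable section

open scoped MatrixGroups ModularForm OnePoint
open UpperHalfPlane Matrix.SpecialLinearGroup CongruenceSubgroup
open P2MW.S_ModularForm_heckeT_slash_eq_self_of_mem_Gamma0.ModularForm.HeckeSlashInvariance

namespace FermatAgent.HM

namespace ALData

variable (D : ALData)

/-- Representatives of `Γ₀(N) \ Γ₀(L)`. -/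
def transversal (x : OnePoint (ZMod D.q)) : SL(2, ℤ) :=
  x.elim 1 fun j => ⟨!![1, (j.val : ℤ) + D.y; (D.L : ℤ), (D.L : ℤ) * j.val + D.q * D.w], by
    rw [Matrix.det_fin_two_of]; linear_combination D.rel⟩

/-- The transversal lies in `Γ₀(L)`. -/
lemma transversal_mem (x : OnePoint (ZMod D.q)) : D.transversal x ∈ Gamma0 D.L := by
  induction x using OnePoint.rec with
  | infty => exact one_mem _
  | coe j => exact Gamma0_mem.mpr (by simp [transversal])

/-- The class in `ℙ¹(𝔽_q)` of the bottom row. -/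
def rowClass (γ : SL(2, ℤ)) : OnePoint (ZMod D.q) :=
  if ((γ 1 0 : ℤ) : ZMod D.q) = 0 then ∞
  else ((((γ 1 1 : ℤ) : ZMod D.q) / ((γ 1 0 : ℤ) : ZMod D.q) : ZMod D.q) : OnePoint (ZMod D.q))

/-- The transversal meets each class of the bottom row once. -/
lemma rowClass_transversal (x : OnePoint (ZMod D.q)) : D.rowClass (D.transversal x) = x := by
  induction x using OnePoint.rec with
  | infty => simp [rowClass, transversal]
  | coe j =>
    have hL : ((D.L : ℕ) : ZMod D.q) ≠ 0 := by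
      rw [Ne, ZMod.natCast_eq_zero_iff]; exact D.not_dvd
    have h1 : (((D.transversal j) 1 0 : ℤ) : ZMod D.q) = (D.L : ZMod D.q) := by simp [transversal]
    have h2 : (((D.transversal j) 1 1 : ℤ) : ZMod D.q) = (D.L : ZMod D.q) * j := by
      simp [transversal]
    rw [rowClass, h1, h2, if_neg hL, mul_div_cancel_left₀ _ hL]

/-- Elements of `Γ₀(L)` with the same class of bottom row lie in the same coset of `Γ₀(N)`. -/
lemma mul_inv_mem {g h : SL(2, ℤ)} (hg : g ∈ Gamma0 D.L) (hh : h ∈ Gamma0 D.L)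
    (e : D.rowClass g = D.rowClass h) : g * h⁻¹ ∈ Gamma0 D.N := by
  have hL : (D.L : ℤ) ∣ (g * h⁻¹) 1 0 :=
    (ZMod.intCast_zmod_eq_zero_iff_dvd _ _).mp (Gamma0_mem.mp (mul_mem hg (inv_mem hh)))
  have hval : (g * h⁻¹) 1 0 = g 1 0 * h 1 1 - g 1 1 * h 1 0 := by
    simp [Matrix.SpecialLinearGroup.coe_inv, Matrix.adjugate_fin_two, Matrix.mul_apply,
      Fin.sum_univ_two]
    ring
  have hq : (D.q : ℤ) ∣ (g * h⁻¹) 1 0 := by
    rw [hval, ← ZMod.intCast_zmod_eq_zero_iff_dvd]
    push_cast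
    unfold rowClass at e
    split at e <;> split at e
    · next h1 h2 => rw [h1, h2]; ring
    · simp at e
    · simp at e
    · next h1 h2 =>
      rw [OnePoint.coe_eq_coe, div_eq_div_iff h1 h2] at e
      linear_combination -e
  rw [Gamma0_mem, ZMod.intCast_zmod_eq_zero_iff_dvd, N]
  push_cast
  refine (Nat.isCoprime_iff_coprime.mpr ?_).mul_dvd hL hq
  exact ((D.prime.coprime_iff_not_dvd).mpr D.not_dvd).symm

/-- The class of the bottom row is invariant under `Γ₀(N)` on the left. -/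
lemma rowClass_mul_left {δ : SL(2, ℤ)} (hδ : δ ∈ Gamma0 D.N) (g : SL(2, ℤ)) :
    D.rowClass (δ * g) = D.rowClass g := by
  have hN := Gamma0_mem.mp hδ
  have hc : ((δ 1 0 : ℤ) : ZMod D.q) = 0 := by
    rw [ZMod.intCast_zmod_eq_zero_iff_dvd] at hN ⊢
    exact (Int.natCast_dvd_natCast.mpr D.q_dvd_N).trans hN
  have hd : ((δ 1 1 : ℤ) : ZMod D.q) ≠ 0 := by
    intro hd
    have := unit_of_apply_one_zero_eq_zero δ hc
    rw [hd, mul_zero] at this
    exact zero_ne_one this
  have e1 : (((δ * g) 1 0 : ℤ) : ZMod D.q) =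
      ((δ 1 1 : ℤ) : ZMod D.q) * ((g 1 0 : ℤ) : ZMod D.q) := by
    simp [Matrix.mul_apply, Fin.sum_univ_two, hc]
  have e2 : (((δ * g) 1 1 : ℤ) : ZMod D.q) =
      ((δ 1 1 : ℤ) : ZMod D.q) * ((g 1 1 : ℤ) : ZMod D.q) := by
    simp [Matrix.mul_apply, Fin.sum_univ_two, hc]
  unfold rowClass
  rw [e1, e2]
  simp only [mul_eq_zero, hd, false_or]
  split
  · rfl
  · rw [mul_div_mul_left _ _ hd]

variable (f : CuspForm (Gamma0 D.N) 2)

/-- The trace as a function. -/
def trFun : ℍ → ℂ := ∑ x : OnePoint (ZMod D.q), ⇑f ∣[(2 : ℤ)] mapGL ℝ (D.transversal x)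

lemma trFun_slash {γ : SL(2, ℤ)} (hγ : γ ∈ Gamma0 D.L) :
    D.trFun f ∣[(2 : ℤ)] (γ : SL(2, ℤ)) = D.trFun f := by
  classical
  let π : OnePoint (ZMod D.q) → OnePoint (ZMod D.q) := fun x => D.rowClass (D.transversal x * γ)
  have hmem : ∀ x, D.transversal x * γ * (D.transversal (π x))⁻¹ ∈ Gamma0 D.N := fun x =>
    D.mul_inv_mem (mul_mem (D.transversal_mem x) hγ) (D.transversal_mem _)
      (D.rowClass_transversal _).symm
  have hinj : Function.Injective π := by
    intro x y hxy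
    have h := D.mul_inv_mem (mul_mem (D.transversal_mem x) hγ)
      (mul_mem (D.transversal_mem y) hγ) hxy
    rw [mul_inv_rev, mul_assoc, mul_inv_cancel_left] at h
    rw [← D.rowClass_transversal x, ← D.rowClass_transversal y,
      ← inv_mul_cancel_right (D.transversal x) (D.transversal y), mul_assoc]
    rw [← mul_assoc, inv_mul_cancel_right]
    calc D.rowClass (D.transversal x)
        = D.rowClass (D.transversal x * (D.transversal y)⁻¹ * D.transversal y) := by
          rw [inv_mul_cancel_right]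
      _ = D.rowClass (D.transversal y) := D.rowClass_mul_left h _
  rw [trFun, ModularForm.SL_slash, SlashAction.sum_slash]
  refine (Finset.sum_congr rfl fun x _ => ?_).trans
    (Equiv.sum_comp (Equiv.ofBijective π (Finite.injective_iff_bijective.mp hinj))
      fun x => ⇑f ∣[(2 : ℤ)] mapGL ℝ (D.transversal x))
  rw [Equiv.ofBijective_apply, ← SlashAction.slash_mul,
    show (toGL ((map (Int.castRingHom ℝ)) γ) : GL (Fin 2) ℝ) = mapGL ℝ γ from rfl, ← map_mul,
    ← inv_mul_cancel_right (D.transversal x * γ) (D.transversal (π x)), map_mul,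
    SlashAction.slash_mul,
    SlashInvariantFormClass.slash_action_eq f _ (Subgroup.mem_map_of_mem (mapGL ℝ) (hmem x))]

/-- The trace is `f + U_q (W_q f)`. -/
lemma trFun_eq : D.trFun f = ⇑f + ModularForm.heckeU 2 D.q (⇑(D.op f)) := by
  rw [trFun, heckeU_eq_sum_zmod,
    show (∑ x : OnePoint (ZMod D.q), ⇑f ∣[(2 : ℤ)] mapGL ℝ (D.transversal x)) =
      ⇑f ∣[(2 : ℤ)] mapGL ℝ (D.transversal ∞) +
        ∑ j : ZMod D.q, ⇑f ∣[(2 : ℤ)] mapGL ℝ (D.transversal j) from
      Fintype.sum_option (fun x : OnePoint (ZMod D.q) => ⇑f ∣[(2 : ℤ)] mapGL ℝ (D.transversal x))]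
  congr 1
  · rw [show D.transversal ∞ = 1 from rfl, map_one, SlashAction.slash_one]
  · refine Finset.sum_congr rfl fun j _ => ?_
    have hq : ((D.q : ℤ) • (1 : Matrix (Fin 2) (Fin 2) ℤ)).det ≠ 0 := by
      rw [Matrix.det_smul, Matrix.det_one, mul_one]
      exact pow_ne_zero _ D.q_ne_zero
    have hgl : D.gl * ModularForm.heckeMatrix D.q j.val =
        mapGL ℝ (D.transversal j) * intGL ((D.q : ℤ) • 1) hq := by
      rw [← show heckeRep D.q (j : OnePoint (ZMod D.q)) = ModularForm.heckeMatrix D.q j.val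
        from rfl,
        ← intGL_repMat, gl, ← intGL_coe, ← intGL_mul, ← intGL_mul]
      refine intGL_congr ?_ _
      rw [Matrix.mul_smul, mul_one]
      ext a b
      fin_cases a <;> fin_cases b <;>
        simp [-ZMod.natCast_val, mat, transversal, N, Matrix.mul_apply, Fin.sum_univ_two] <;> ring
    rw [coe_op, ← SlashAction.slash_mul, hgl, SlashAction.slash_mul,
      slash_scalar_two D.prime.ne_zero]

/-- The trace to level `L`. -/
def tr : CuspForm (Gamma0 D.L) 2 :=
  ofSlashSum f (Finset.univ : Finset (OnePoint (ZMod D.q)))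
    (fun x => Matrix.SpecialLinearGroup.mapGL ℚ (D.transversal x)) D.L (D.trFun f)
    (Finset.sum_congr rfl fun x _ => congrArg (fun g => ⇑f ∣[(2 : ℤ)] g)
      (by ext i j; simp))
    fun _ hγ => D.trFun_slash f hγ

/-- The trace as a function. -/
@[simp] lemma coe_tr : ⇑(D.tr f) = D.trFun f := rfl

/-- At level `N` the trace is `f + U_q (W_q f)`. -/
lemma levelRaise_tr :
    levelRaise D.L_dvd_N (D.tr f) = f + CuspForm.heckeULin 2 D.q_dvd_N (D.op f) :=
  DFunLike.coe_injective (by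
    rw [coe_levelRaise, coe_tr, trFun_eq, FunLike.coe_add, CuspForm.coe_heckeULin_apply])

/-- The trace commutes with `T_ℓ`, `ℓ ∤ N`. -/
theorem heckeTLin_tr {ℓ : ℕ} (hℓ : ℓ.Prime) (hℓN : ¬ ℓ ∣ D.N) :
    CuspForm.heckeTLin 2 hℓ (fun h => hℓN (h.trans D.L_dvd_N)) (D.tr f) =
      D.tr (CuspForm.heckeTLin 2 hℓ hℓN f) := by
  have h1 : levelRaise D.L_dvd_N
      (CuspForm.heckeTLin 2 hℓ (fun h => hℓN (h.trans D.L_dvd_N)) (D.tr f)) =
        CuspForm.heckeTLin 2 hℓ hℓN (levelRaise D.L_dvd_N (D.tr f)) := DFunLike.coe_injective rfl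
  have h2 : levelRaise D.L_dvd_N
      (CuspForm.heckeTLin 2 hℓ (fun h => hℓN (h.trans D.L_dvd_N)) (D.tr f)) =
        levelRaise D.L_dvd_N (D.tr (CuspForm.heckeTLin 2 hℓ hℓN f)) := by
    rw [h1, levelRaise_tr, levelRaise_tr, map_add, D.op_heckeTLin]
    congr 1
    exact LinearMap.congr_fun (CuspForm.heckeTLin_heckeULin_comm 2 hℓ hℓN D.q_dvd_N).eq (D.op f)
  exact DFunLike.coe_injective (congrArg (fun g : CuspForm (Gamma0 D.N) 2 => ⇑g) h2)

end ALData

end FermatAgent.HM
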