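import Fermat.Agent.HM.HeckeCosets

/-!
The Atkin–Lehner involution at a prime `q` exactly dividing the level, in weight two: its matrix,
the operator on cusp forms and its commutation with the Hecke operators at primes off the level.
-/

set_option autoImplicit false

noncomputable section

open scoped MatrixGroups ModularForm OnePoint
open UpperHalfPlane Matrix.SpecialLinearGroup CongruenceSubgroup
open P2MW.S_ModularForm_heckeT_slash_eq_self_of_mem_Gamma0.ModularForm.HeckeSlashInvariance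

namespace FermatAgent.HM

/-- Data for the Atkin–Lehner matrix `(q y; M qw)` with `M = qL`, `q ∤ L`. -/
structure ALData where
  /-- the prime -/
  q : ℕ
  /-- the level prime to `q` -/
  L : ℕ
  /-- the upper right entry -/
  y : ℤ
  /-- the cofactor of `q` in the lower right entry -/
  w : ℤ
  prime : q.Prime
  not_dvd : ¬ q ∣ L
  L_ne_zero : L ≠ 0
  rel : (q : ℤ) * w - (L : ℤ) * y = 1

namespace ALData

/-- Such data exist for every prime exactly dividing the level. -/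
theorem exists_data {q L : ℕ} (hq : q.Prime) (hqL : ¬ q ∣ L) (hL : L ≠ 0) :
    ∃ D : ALData, D.q = q ∧ D.L = L := by
  obtain ⟨u, v, huv⟩ : IsCoprime (q : ℤ) (L : ℤ) :=
    Nat.isCoprime_iff_coprime.mpr (hq.coprime_iff_not_dvd.mpr hqL)
  exact ⟨⟨q, L, -v, u, hq, hqL, hL, by linear_combination huv⟩, rfl, rfl⟩

variable (D : ALData)

/-- The level. -/
def N : ℕ := D.L * D.q

instance neZero_L : NeZero D.L := ⟨D.L_ne_zero⟩

instance neZero_N : NeZero D.N := ⟨mul_ne_zero D.L_ne_zero D.prime.ne_zero⟩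

instance fact_q : Fact D.q.Prime := ⟨D.prime⟩

instance neZero_q : NeZero D.q := ⟨D.prime.ne_zero⟩

/-- The prime `q` is nonzero as an integer. -/
lemma q_ne_zero : (D.q : ℤ) ≠ 0 := by exact_mod_cast D.prime.ne_zero

/-- `q` divides the level `N = Lq`. -/
lemma q_dvd_N : D.q ∣ D.N := dvd_mul_left _ _

/-- `L` divides the level `N = Lq`. -/
lemma L_dvd_N : D.L ∣ D.N := dvd_mul_right _ _

/-- The Atkin–Lehner matrix. -/
def mat : Matrix (Fin 2) (Fin 2) ℤ := !![(D.q : ℤ), D.y; (D.N : ℤ), (D.q : ℤ) * D.w]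

/-- The Atkin–Lehner matrix has determinant `q`. -/
lemma det_mat : D.mat.det = D.q := by
  rw [mat, Matrix.det_fin_two_of, N]
  push_cast
  linear_combination (D.q : ℤ) * D.rel

/-- The Atkin–Lehner matrix has nonzero determinant. -/
lemma det_mat_ne_zero : D.mat.det ≠ 0 := by rw [det_mat]; exact D.q_ne_zero

/-- The matrix as an element of `GL(2, ℝ)`. -/
def gl : GL (Fin 2) ℝ := intGL D.mat D.det_mat_ne_zero

/-- The Atkin–Lehner matrix normalises the integral matrices with `N ∣ c`, preserving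
determinants. -/
lemma exists_conj (A : Matrix (Fin 2) (Fin 2) ℤ) (hA : (D.N : ℤ) ∣ A 1 0) :
    ∃ A' : Matrix (Fin 2) (Fin 2) ℤ, A'.det = A.det ∧ (D.N : ℤ) ∣ A' 1 0 ∧
      D.mat * A = A' * D.mat := by
  obtain ⟨c, hc⟩ := hA
  have hrel := D.rel
  rw [N] at hc
  push_cast at hc
  refine ⟨!![D.w * (D.q * A 0 0 + D.y * A 1 0) - D.L * (D.q * A 0 1 + D.y * A 1 1),
      -D.y * A 0 0 - D.y ^ 2 * D.L * c + D.q * A 0 1 + D.y * A 1 1;
      (D.N : ℤ) * (D.w * A 0 0 + D.q * D.w ^ 2 * c - D.L * A 0 1 - D.w * A 1 1),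
      -D.y * D.L * A 0 0 - D.y * D.w * A 1 0 + D.N * A 0 1 + D.q * D.w * A 1 1], ?_,
    dvd_mul_right _ _, ?_⟩
  · apply mul_left_cancel₀ (pow_ne_zero 2 D.q_ne_zero)
    rw [Matrix.det_fin_two_of, Matrix.det_fin_two, N]
    push_cast
    rw [hc]
    linear_combination
      ((D.q : ℤ) ^ 2 * (A 0 0 * A 1 1 - A 0 1 * (D.L * D.q * c)) *
        ((D.q : ℤ) * D.w - D.L * D.y + 1)) * hrel
  · ext i j
    fin_cases i <;> fin_cases j <;>
      simp [mat, N, Matrix.mul_apply, Fin.sum_univ_two, hc]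
    · linear_combination (-((D.q : ℤ) * A 0 0) - D.q * D.L * D.y * c) * hrel
    · linear_combination (-((D.q : ℤ) * A 0 1) - D.y * A 1 1) * hrel
    · linear_combination (-((D.q : ℤ) * D.L * A 0 0) - D.q * D.q * D.w * D.L * c) * hrel
    · linear_combination (-((D.q : ℤ) * D.L * A 0 1) - D.q * D.w * A 1 1) * hrel

/-- The Atkin–Lehner matrix normalises `Γ₀(N)`. -/
lemma exists_sl_conj {γ : SL(2, ℤ)} (hγ : γ ∈ Gamma0 D.N) :
    ∃ δ : SL(2, ℤ), δ ∈ Gamma0 D.N ∧
      D.mat * (γ : Matrix (Fin 2) (Fin 2) ℤ) = (δ : Matrix (Fin 2) (Fin 2) ℤ) * D.mat := by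
  obtain ⟨A', hdet, hc, he⟩ := D.exists_conj (γ : Matrix (Fin 2) (Fin 2) ℤ)
    ((ZMod.intCast_zmod_eq_zero_iff_dvd _ _).mp (Gamma0_mem.mp hγ))
  rw [γ.det_coe] at hdet
  exact ⟨⟨A', hdet⟩, Gamma0_mem.mpr ((ZMod.intCast_zmod_eq_zero_iff_dvd _ _).mpr hc), he⟩

/-- The square of the matrix is `q` times an element of `Γ₀(N)`. -/
def sqSL : SL(2, ℤ) :=
  ⟨!![(D.q : ℤ) + D.L * D.y, D.y * (1 + D.w); (D.N : ℤ) * (1 + D.w),
      (D.L : ℤ) * D.y + D.q * D.w ^ 2], by
    rw [Matrix.det_fin_two_of, N]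
    push_cast
    linear_combination ((D.q : ℤ) * D.w - D.L * D.y + 1) * D.rel⟩

/-- The element `sqSL` with `W_q² = q · sqSL` lies in `Γ₀(N)`. -/
lemma sqSL_mem : D.sqSL ∈ Gamma0 D.N :=
  Gamma0_mem.mpr (by simp [sqSL])

/-- The square of the Atkin–Lehner matrix is `q` times an element of `Γ₀(N)`. -/
lemma mat_sq : D.mat * D.mat = (D.q : ℤ) • (D.sqSL : Matrix (Fin 2) (Fin 2) ℤ) := by
  ext i j
  fin_cases i <;> fin_cases j <;>
    simp [mat, sqSL, N, Matrix.mul_apply, Fin.sum_univ_two] <;> ring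

/-- The Atkin–Lehner operator. -/
def op (f : CuspForm (Gamma0 D.N) 2) : CuspForm (Gamma0 D.N) 2 :=
  ofSlashSum f (Finset.univ : Finset Unit)
    (fun _ => Matrix.GeneralLinearGroup.mkOfDetNeZero (D.mat.map (Int.cast : ℤ → ℚ)) (by
      rw [show (D.mat.map (Int.cast : ℤ → ℚ)) = D.mat.map (Int.castRingHom ℚ) from rfl,
        ← RingHom.mapMatrix_apply, ← RingHom.map_det, det_mat]
      simp [D.prime.ne_zero]))
    D.N (⇑f ∣[(2 : ℤ)] D.gl) (by rw [Fintype.sum_unique]; rfl) fun γ hγ => by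
      obtain ⟨δ, hδ, he⟩ := D.exists_sl_conj hγ
      have hgl : D.gl * mapGL ℝ γ = mapGL ℝ δ * D.gl := by
        rw [gl, ← intGL_coe, ← intGL_coe, ← intGL_mul, ← intGL_mul]
        exact intGL_congr he _
      rw [ModularForm.SL_slash, ← SlashAction.slash_mul,
        show (toGL ((map (Int.castRingHom ℝ)) γ) : GL (Fin 2) ℝ) = mapGL ℝ γ from rfl, hgl,
        SlashAction.slash_mul,
        SlashInvariantFormClass.slash_action_eq f _ (Subgroup.mem_map_of_mem (mapGL ℝ) hδ)]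

/-- The Atkin–Lehner operator on forms is the weight-two slash by its matrix. -/
@[simp] lemma coe_op (f : CuspForm (Gamma0 D.N) 2) : ⇑(D.op f) = ⇑f ∣[(2 : ℤ)] D.gl := rfl

/-- The Atkin–Lehner operator on weight-two forms is an involution. -/
lemma op_op (f : CuspForm (Gamma0 D.N) 2) : D.op (D.op f) = f := by
  apply DFunLike.coe_injective
  have hq : ((D.q : ℤ) • (1 : Matrix (Fin 2) (Fin 2) ℤ)).det ≠ 0 := by
    rw [Matrix.det_smul, Matrix.det_one, mul_one]
    exact pow_ne_zero _ D.q_ne_zero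
  have hgl : D.gl * D.gl = mapGL ℝ D.sqSL * intGL ((D.q : ℤ) • 1) hq := by
    rw [gl, ← intGL_coe, ← intGL_mul, ← intGL_mul]
    exact intGL_congr (by rw [mat_sq, Matrix.mul_smul, mul_one]) _
  simp only [coe_op]
  rw [← SlashAction.slash_mul, hgl, SlashAction.slash_mul,
    SlashInvariantFormClass.slash_action_eq f _ (Subgroup.mem_map_of_mem (mapGL ℝ) D.sqSL_mem),
    slash_scalar_two D.prime.ne_zero]

/-- The Atkin–Lehner operator is additive. -/
lemma op_add (f g : CuspForm (Gamma0 D.N) 2) : D.op (f + g) = D.op f + D.op g :=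
  DFunLike.coe_injective (by simp [SlashAction.add_slash])

/-- The Atkin–Lehner operator commutes with scalars. -/
lemma op_smul (c : ℂ) (f : CuspForm (Gamma0 D.N) 2) : D.op (c • f) = c • D.op f := by
  apply DFunLike.coe_injective
  have hpos : 0 < (D.gl.det : ℝ) := by
    rw [Matrix.GeneralLinearGroup.val_det_apply, Matrix.det_fin_two, gl, val_intGL, val_intGL,
      val_intGL, val_intGL]
    have h := D.det_mat
    rw [Matrix.det_fin_two] at h
    have h' := congrArg (Int.cast : ℤ → ℝ) h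
    push_cast at h'
    rw [h']
    exact Nat.cast_pos.mpr D.prime.pos
  rw [FunLike.coe_smul, coe_op, coe_op, FunLike.coe_smul, ModularForm.smul_slash,
    UpperHalfPlane.σ, if_pos hpos]
  rfl

/-- `W_q` commutes with `T_ℓ` for `ℓ ∤ N`. -/
theorem op_heckeTLin {ℓ : ℕ} (hℓ : ℓ.Prime) (hℓN : ¬ ℓ ∣ D.N) (f : CuspForm (Gamma0 D.N) 2) :
    D.op (CuspForm.heckeTLin 2 hℓ hℓN f) = CuspForm.heckeTLin 2 hℓ hℓN (D.op f) := by
  have : Fact ℓ.Prime := ⟨hℓ⟩
  apply DFunLike.coe_injective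
  simp only [coe_op, CuspForm.coe_heckeTLin_apply, gl]
  refine (heckeT_slash_comm hℓN 2 ⇑f (fun γ hγ => SlashInvariantFormClass.slash_action_eq f _
    ⟨γ, hγ, rfl⟩) D.mat D.det_mat_ne_zero (fun A hA hc => ?_) fun γ δ x y z hx hy => ?_).symm
  · obtain ⟨A', h1, h2, h3⟩ := D.exists_conj A hc
    exact ⟨A', h1.trans hA, h2, h3⟩
  · obtain ⟨δ', hδ', he⟩ := D.exists_sl_conj (mul_mem γ.2 (inv_mem δ.2))
    have h1 : D.mat * repMat ℓ x =
        ((γ.1 * δ.1⁻¹ : SL(2, ℤ)) : Matrix (Fin 2) (Fin 2) ℤ) * (D.mat * repMat ℓ y) := by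
      rw [hx, hy, ← Matrix.mul_assoc, ← Matrix.mul_assoc, ← Matrix.SpecialLinearGroup.coe_mul,
        mul_assoc γ.1, inv_mul_cancel, mul_one]
    have h2 : D.mat * (D.mat * repMat ℓ x) =
        (δ' : Matrix (Fin 2) (Fin 2) ℤ) * (D.mat * (D.mat * repMat ℓ y)) := by
      rw [h1, ← Matrix.mul_assoc D.mat, he, Matrix.mul_assoc]
    rw [← Matrix.mul_assoc D.mat D.mat (repMat ℓ x), ← Matrix.mul_assoc D.mat D.mat (repMat ℓ y),
      mat_sq, Matrix.smul_mul, Matrix.smul_mul, Matrix.mul_smul] at h2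
    have h3 := smul_right_injective (Matrix (Fin 2) (Fin 2) ℤ) D.q_ne_zero h2
    simp only [← Matrix.mul_assoc, ← Matrix.SpecialLinearGroup.coe_mul] at h3
    refine repMat_unique (γ := D.sqSL⁻¹ * δ' * D.sqSL) ?_
    have h4 := congrArg (fun X => ((D.sqSL⁻¹ : SL(2, ℤ)) : Matrix (Fin 2) (Fin 2) ℤ) * X) h3
    simp only [← Matrix.mul_assoc, ← Matrix.SpecialLinearGroup.coe_mul, inv_mul_cancel,
      Matrix.SpecialLinearGroup.coe_one, Matrix.one_mul] at h4
    rw [h4, mul_assoc D.sqSL⁻¹]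

end ALData

end FermatAgent.HM
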